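import Fermat.Agent.CyclotomicSquares.MeanSquare
import Fermat.Agent.FrobeniusCounting.Indicator
import Mathlib.NumberTheory.Cyclotomic.PrimitiveRoots

/-!
# The theorems of Burnside and Thompson

The values of a character lie in a cyclotomic field, and orthogonality holds for all their
conjugates.
-/

set_option autoImplicit false

noncomputable section

namespace FA.CyclotomicSquares

open Finset Module FA.CharacterTheory FA.FrobeniusGroups
open scoped ComplexConjugate

variable {G : Type*} [Group G] [Fintype G]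

theorem exists_field_value {K : Type*} [Field K] [NumberField K]
    [IsCyclotomicExtension {Nat.card G} ℚ K] (ψ₀ : K →ₐ[ℚ] ℂ) {χ : G → ℂ} (hχ : χ ∈ irr G)
    (g : G) : ∃ x : K, IsIntegral ℤ x ∧ ψ₀ x = χ g := by
  classical
  obtain ⟨W, -, rfl⟩ := exists_of_mem_irr hχ
  set ρ := W.toRepresentation
  have : NeZero (Nat.card G) := ⟨Nat.card_pos.ne'⟩
  obtain ⟨ζ, hζ⟩ :=
    IsCyclotomicExtension.exists_isPrimitiveRoot ℚ K (Set.mem_singleton (Nat.card G)) (NeZero.ne _)
  set b := finBasis ℂ W.toSubmodule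
  set A := LinearMap.toMatrix b b (ρ g) with hA'
  have hA : A ^ Nat.card G = 1 := by
    rw [hA', LinearMap.toMatrix_pow, ← map_pow, pow_card_eq_one', map_one, LinearMap.toMatrix_one]
  have hroot : ∀ z ∈ A.charpoly.roots, ∃ x : K, IsIntegral ℤ x ∧ ψ₀ x = z := fun z hz => by
    obtain ⟨i, -, hi⟩ := (hζ.map_of_injective (f := ψ₀)
      (fun _ _ h => ψ₀.toRingHom.injective h)).eq_pow_of_pow_eq_one
      (FA.LinearGroups.pow_eq_one_of_mem_roots hA hz)
    exact ⟨ζ ^ i, (hζ.isIntegral Nat.card_pos).pow i, by rw [map_pow, hi]⟩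
  choose! x hx hxz using hroot
  refine ⟨(A.charpoly.roots.map x).sum, IsIntegral.multiset_sum fun y hy => ?_, ?_⟩
  · obtain ⟨z, hz, rfl⟩ := Multiset.mem_map.1 hy
    exact hx z hz
  · rw [map_multiset_sum, Multiset.map_map, Representation.character,
      LinearMap.trace_eq_matrix_trace ℂ b, Matrix.trace_eq_sum_roots_charpoly]
    exact congrArg Multiset.sum ((Multiset.map_congr rfl fun z hz => hxz z hz).trans
      (Multiset.map_id _))

/-- Orthogonality for the conjugates, and the bound for each element. -/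
theorem exists_weights {χ : G → ℂ} (hχ : χ ∈ irr G) :
    ∃ w : G → ℝ, (∑ g, w g = Nat.card G) ∧ (∀ g, 0 ≤ w g) ∧
      (∀ g, χ g ≠ 0 → (∀ m : ℕ, 0 < m → χ g ^ m ≠ 1) → 3 / 2 ≤ w g) ∧
      (∀ g, (∃ m : ℕ, 0 < m ∧ χ g ^ m = 1) → 1 ≤ w g) ∧ ∀ d : ℕ, χ 1 = d → w 1 = (d : ℝ) ^ 2 := by
  classical
  have : NeZero (Nat.card G) := ⟨Nat.card_pos.ne'⟩
  let K := CyclotomicField (Nat.card G) ℚ
  have : NeZero ((Nat.card G : ℕ) : ℚ) := NeZero.charZero
  have hK : IsCyclotomicExtension {Nat.card G} ℚ K :=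
    CyclotomicField.isCyclotomicExtension (Nat.card G) ℚ
  have : NumberField K := IsCyclotomicExtension.numberField {Nat.card G} ℚ K
  have : IsAbelianGalois ℚ K := IsCyclotomicExtension.isAbelianGalois {Nat.card G} ℚ K
  obtain ⟨c, hc⟩ := exists_conjugation K
  have ψ₀ : K →ₐ[ℚ] ℂ := IsAlgClosed.lift
  choose x hxint hx using exists_field_value ψ₀ hχ
  have hinj : Function.Injective ψ₀ := fun _ _ h => ψ₀.toRingHom.injective h
  have hdeg : (0 : ℝ) < finrank ℚ K := Nat.cast_pos.2 finrank_pos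
  have hcard : Fintype.card (K →ₐ[ℚ] ℂ) = finrank ℚ K := AlgHom.card ℚ K ℂ
  refine ⟨fun g => (finrank ℚ K : ℝ)⁻¹ * ∑ ψ : K →ₐ[ℚ] ℂ, ‖ψ (x g)‖ ^ 2, ?_,
    fun g => mul_nonneg (inv_nonneg.2 hdeg.le) (sum_nonneg fun ψ _ => sq_nonneg _),
    fun g h0 hroot => ?_, fun g hg => ?_, fun d hd => ?_⟩
  · have hN : ∑ g, x g * c (x g) = (Nat.card G : K) := hinj (by
      rw [map_sum, map_natCast]
      have h := pairing_irr hχ hχ
      rw [if_pos rfl, pairing, inv_mul_eq_iff_eq_mul₀ (Nat.cast_ne_zero.2 Nat.card_pos.ne'),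
        mul_one] at h
      rw [← h]
      refine sum_congr rfl fun g _ => ?_
      rw [map_mul, hc, hx, FA.FrobeniusCounting.irr_inv hχ])
    have hψ : ∀ ψ : K →ₐ[ℚ] ℂ, ∑ g, ‖ψ (x g)‖ ^ 2 = (Nat.card G : ℝ) := fun ψ => by
      have h := congrArg ψ hN
      rw [map_sum, map_natCast] at h
      simp only [map_mul, hc, Complex.mul_conj, Complex.normSq_eq_norm_sq] at h
      exact_mod_cast h
    rw [← mul_sum, sum_comm, sum_congr rfl fun ψ _ => hψ ψ, sum_const, card_univ, hcard,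
      nsmul_eq_mul, inv_mul_cancel_left₀ hdeg.ne']
  · dsimp only
    rw [inv_mul_eq_div, le_div_iff₀ hdeg]
    exact mean_square c hc (hxint g) (fun e => h0 (by rw [← hx g, e, map_zero]))
      fun m hm e => hroot m hm (by rw [← hx g, ← map_pow, e, map_one])
  · obtain ⟨m, hm, hgm⟩ := hg
    have hx1 : x g ^ m = 1 := hinj (by rw [map_pow, hx, hgm, map_one])
    dsimp only
    rw [inv_mul_eq_div, le_div_iff₀ hdeg, one_mul, ← hcard, ← card_univ]
    rw [← nsmul_one, ← sum_const]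
    refine sum_le_sum fun ψ _ => le_of_eq ?_
    rw [Complex.norm_eq_one_of_pow_eq_one (by rw [← map_pow, hx1, map_one]) hm.ne', one_pow]
  · have h1 : x 1 = (d : K) := hinj (by rw [hx, hd, map_natCast])
    simp only [h1, map_natCast, Complex.norm_natCast, sum_const, card_univ, hcard, nsmul_eq_mul]
    rw [inv_mul_cancel_left₀ hdeg.ne']

open scoped Classical in
/-- **Thompson.** -/
theorem card_lt_three_mul {χ : G → ℂ} (hχ : χ ∈ irr G) :
    Nat.card G < 3 * #(univ.filter fun g => χ g = 0 ∨ ∃ m : ℕ, 0 < m ∧ χ g ^ m = 1) := by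
  obtain ⟨w, hsum, hnn, hbad, -, hone⟩ := exists_weights hχ
  obtain ⟨d, hd0, hd⟩ := irr_one hχ
  set good := univ.filter fun g => χ g = 0 ∨ ∃ m : ℕ, 0 < m ∧ χ g ^ m = 1
  have hlt : ∑ g : G, (if g ∈ good then (0 : ℝ) else 3 / 2) < ∑ g, w g := by
    refine sum_lt_sum (fun g _ => ?_) ⟨1, mem_univ _, ?_⟩
    · split_ifs with h
      · exact hnn g
      · simp only [good, mem_filter, mem_univ, true_and, not_or, not_exists, not_and] at h
        exact hbad g h.1 h.2
    · rw [hone d hd]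
      split_ifs with h
      · positivity
      · have hd1 : d ≠ 1 := fun e => h
          (mem_filter.2 ⟨mem_univ _, Or.inr ⟨1, one_pos, by simp [hd, e]⟩⟩)
        have : (2 : ℝ) ≤ d := by exact_mod_cast (show 2 ≤ d by omega)
        nlinarith
  rw [hsum, sum_ite, sum_const_zero, zero_add, sum_const, nsmul_eq_mul] at hlt
  have hsplit := card_filter_add_card_filter_not (s := (univ : Finset G)) (fun g => g ∈ good)
  rw [filter_mem_eq_inter, univ_inter, card_univ, ← Nat.card_eq_fintype_card] at hsplit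
  have h' : (3 * #(univ.filter fun g => g ∉ good) : ℝ) < 2 * Nat.card G := by linarith
  have h'' : 3 * #(univ.filter fun g => g ∉ good) < 2 * Nat.card G := by exact_mod_cast h'
  omega

/-- **Burnside.** -/
theorem exists_zero {χ : G → ℂ} (hχ : χ ∈ irr G) (hdeg : χ 1 ≠ 1) : ∃ g, χ g = 0 := by
  by_contra! h
  obtain ⟨w, hsum, -, hbad, hroot, hone⟩ := exists_weights hχ
  obtain ⟨d, hd0, hd⟩ := irr_one hχ
  have hlt : ∑ _g : G, (1 : ℝ) < ∑ g, w g := by
    refine sum_lt_sum (fun g _ => ?_) ⟨1, mem_univ _, ?_⟩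
    · by_cases hg : ∃ m : ℕ, 0 < m ∧ χ g ^ m = 1
      · exact hroot g hg
      · push Not at hg
        exact (by norm_num : (1 : ℝ) ≤ 3 / 2).trans (hbad g (h g) hg)
    · have hd1 : d ≠ 1 := fun e => hdeg (by simp [hd, e])
      have : (2 : ℝ) ≤ d := by exact_mod_cast (show 2 ≤ d by omega)
      rw [hone d hd]
      nlinarith
  rw [hsum, sum_const, card_univ, nsmul_eq_mul, mul_one, Nat.card_eq_fintype_card] at hlt
  exact lt_irrefl _ hlt

end FA.CyclotomicSquares

end
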