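import Fermat.Agent.SiegelTrace.Main
import Mathlib.NumberTheory.Cyclotomic.Basic
import Mathlib.NumberTheory.NumberField.InfinitePlace.Embeddings
import Mathlib.RingTheory.Trace.Basic
import Mathlib.FieldTheory.Galois.Basic
import Mathlib.Analysis.Complex.Polynomial.Basic

/-!
# The mean square of the conjugates

Siegel's theorem for `α c α`, where `c` is complex conjugation in every embedding.
-/

set_option autoImplicit false

noncomputable section

namespace FA.CyclotomicSquares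

open Polynomial Module
open scoped ComplexConjugate

variable {K : Type*} [Field K] [NumberField K]

/-- **Siegel's theorem on embeddings.** -/
theorem siegel_embeddings {x : K} (hx : IsIntegral ℤ x) (hx1 : x ≠ 1)
    (hpos : ∀ ψ : K →ₐ[ℚ] ℂ, (ψ x).im = 0 ∧ 0 < (ψ x).re) :
    3 / 2 * (finrank ℚ K : ℝ) ≤ ∑ ψ : K →ₐ[ℚ] ℂ, (ψ x).re := by
  set f := minpoly ℤ x
  have hf : f.Monic := minpoly.monic hx
  have hQ : minpoly ℚ x = f.map (algebraMap ℤ ℚ) :=
    minpoly.isIntegrallyClosed_eq_field_fractions' ℚ hx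
  have hroots : (minpoly ℚ x).aroots ℂ = f.aroots ℂ := by
    rw [aroots_def, aroots_def, hQ, Polynomial.map_map, ← IsScalarTower.algebraMap_eq ℤ ℚ ℂ]
  have hsum : ∑ ψ : K →ₐ[ℚ] ℂ, ψ x =
      finrank (IntermediateField.adjoin ℚ {x}) K • (f.aroots ℂ).sum := by
    rw [← trace_eq_sum_embeddings (K := ℚ) (E := ℂ) (x := x),
      trace_eq_sum_roots (F := ℂ) (IsAlgClosed.splits _), hroots]
  have hreal : ∀ z ∈ f.aroots ℂ, z.im = 0 ∧ 0 < z.re := fun z hz => by
    have hz' : z ∈ (minpoly ℚ x).rootSet ℂ := by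
      rw [Polynomial.rootSet, hroots, Finset.mem_coe, Multiset.mem_toFinset]
      exact hz
    rw [← Algebra.IsAlgebraic.range_eval_eq_rootSet_minpoly ℂ x] at hz'
    obtain ⟨ψ, rfl⟩ := hz'
    exact hpos ψ
  have h1 : f ≠ X - C 1 := fun e => hx1 (by
    have h := minpoly.aeval ℤ x
    change aeval x f = 0 at h
    rw [e] at h
    simpa [sub_eq_zero] using h)
  have hdeg : f.natDegree = finrank ℚ (IntermediateField.adjoin ℚ {x}) := by
    rw [IntermediateField.adjoin.finrank (Algebra.IsIntegral.isIntegral x), hQ,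
      hf.natDegree_map]
  have hge : 3 / 2 * (f.natDegree : ℝ) ≤ (f.aroots ℂ).sum.re := by
    rw [FA.SiegelTrace.sum_aroots hf, Complex.neg_re, Complex.intCast_re]
    by_cases h2 : f = X ^ 2 - C 3 * X + C 1
    · have hd : (X ^ 2 - C 3 * X + C 1 : ℤ[X]).natDegree = 2 := by compute_degree!
      rw [h2, hd, nextCoeff_of_natDegree_pos (by omega), hd]
      norm_num [coeff_one, coeff_C]
    · have h := FA.SiegelTrace.trace_gap hf (minpoly.irreducible hx) (fun z hz => (hreal z hz).1)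
        (fun z hz => (hreal z hz).2) h1 h2
      linarith [(Nat.cast_nonneg f.natDegree : (0 : ℝ) ≤ f.natDegree)]
  rw [← finrank_mul_finrank ℚ (IntermediateField.adjoin ℚ {x}) K, ← hdeg, Nat.cast_mul,
    ← Complex.re_sum, hsum, nsmul_eq_mul, Complex.mul_re, Complex.natCast_re, Complex.natCast_im,
    zero_mul, sub_zero]
  calc 3 / 2 * ((f.natDegree : ℝ) * (finrank (IntermediateField.adjoin ℚ {x}) K : ℝ))
      = (finrank (IntermediateField.adjoin ℚ {x}) K : ℝ) * (3 / 2 * (f.natDegree : ℝ)) := by ring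
    _ ≤ _ := mul_le_mul_of_nonneg_left hge (Nat.cast_nonneg _)

/-- **The mean square of the conjugates.** -/
theorem mean_square (c : K ≃ₐ[ℚ] K) (hc : ∀ (ψ : K →ₐ[ℚ] ℂ) (y : K), ψ (c y) = conj (ψ y))
    {x : K} (hx : IsIntegral ℤ x) (hx0 : x ≠ 0) (hroot : ∀ m : ℕ, 0 < m → x ^ m ≠ 1) :
    3 / 2 * (finrank ℚ K : ℝ) ≤ ∑ ψ : K →ₐ[ℚ] ℂ, ‖ψ x‖ ^ 2 := by
  have hval : ∀ ψ : K →ₐ[ℚ] ℂ, ψ (x * c x) = ((‖ψ x‖ ^ 2 : ℝ) : ℂ) := fun ψ => by
    rw [map_mul, hc, Complex.mul_conj, Complex.normSq_eq_norm_sq]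
  have h := siegel_embeddings (x := x * c x)
    (hx.mul (hx.map (c.toAlgHom.restrictScalars ℤ))) (fun e => ?_) fun ψ => ?_
  · simp only [hval, Complex.ofReal_re] at h
    exact h
  · have hone : ∀ φ : K →+* ℂ, ‖φ x‖ = 1 := fun φ => by
      have h2 := congrArg φ.toRatAlgHom e
      rw [hval, map_one, ← Complex.ofReal_one, Complex.ofReal_inj] at h2
      exact (sq_eq_one_iff.1 h2).resolve_right fun h3 => by
        linarith [norm_nonneg (φ.toRatAlgHom x)]
    obtain ⟨m, hm, hxm⟩ := NumberField.Embeddings.pow_eq_one_of_norm_eq_one K ℂ hx hone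
    exact hroot m hm hxm
  · rw [hval, Complex.ofReal_im, Complex.ofReal_re]
    exact ⟨rfl, pow_pos (norm_pos_iff.2 (map_ne_zero ψ |>.2 hx0)) 2⟩

/-- Complex conjugation in an abelian number field. -/
theorem exists_conjugation (K : Type*) [Field K] [NumberField K] [IsAbelianGalois ℚ K] :
    ∃ c : K ≃ₐ[ℚ] K, ∀ (ψ : K →ₐ[ℚ] ℂ) (y : K), ψ (c y) = conj (ψ y) := by
  have ψ₀ : K →ₐ[ℚ] ℂ := IsAlgClosed.lift
  let _ : Algebra K ℂ := ψ₀.toRingHom.toAlgebra
  have : IsScalarTower ℚ K ℂ := IsScalarTower.of_algebraMap_eq fun q => (ψ₀.commutes q).symm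
  set J : ℂ →ₐ[ℚ] ℂ := (starRingEnd ℂ : ℂ →+* ℂ).toRatAlgHom
  set c := AlgHom.restrictNormal' J K
  have hc₀ : ∀ y, ψ₀ (c y) = conj (ψ₀ y) := fun y => AlgHom.restrictNormal_commutes J K y
  refine ⟨c, fun ψ y => ?_⟩
  obtain ⟨τ, hτ⟩ : ∃ τ : K ≃ₐ[ℚ] K, ∀ z, ψ z = ψ₀ (τ z) := by
    refine ⟨(Normal.algHomEquivAut ℚ ℂ K) ψ, fun z => ?_⟩
    have h2 := congrArg (fun φ : K →ₐ[ℚ] ℂ => φ z)
      ((Normal.algHomEquivAut ℚ ℂ K).symm_apply_apply ψ)
    exact h2.symm
  rw [hτ, hτ, show τ (c y) = c (τ y) from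
    DFunLike.congr_fun (IsMulCommutative.is_comm.comm τ c) y, hc₀]

end FA.CyclotomicSquares

end
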