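import Fermat.Agent.SiegelTrace.Arithmetic
import Mathlib.NumberTheory.MahlerMeasure
import Mathlib.RingTheory.RootsOfUnity.Complex
import Mathlib.Analysis.SpecialFunctions.Trigonometric.Basic

/-!
# Kronecker's theorem on the interval `[-2, 2]`

The roots `z` of `X ^ d f (X + 1 / X)` have modulus one, so they are roots of unity.
-/

set_option autoImplicit false

noncomputable section

namespace FA.CyclotomicSquares

open Polynomial Finset Real

/-- `X ^ d f (X + 1 / X)`. -/
def lift (f : ℤ[X]) : ℤ[X] :=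
  ∑ i ∈ range (f.natDegree + 1), C (f.coeff i) * X ^ (f.natDegree - i) * (X ^ 2 + 1) ^ i

theorem aeval_lift (f : ℤ[X]) {z : ℂ} (hz : z ≠ 0) :
    aeval z (lift f) = z ^ f.natDegree * aeval (z + z⁻¹) f := by
  rw [aeval_eq_sum_range (p := f), mul_sum, lift, map_sum]
  refine sum_congr rfl fun i hi => ?_
  have hid : i ≤ f.natDegree := Nat.lt_succ_iff.1 (mem_range.1 hi)
  rw [map_mul, map_mul, map_pow, map_pow, aeval_X, aeval_C, map_add, map_pow, aeval_X, map_one,
    show z ^ 2 + 1 = z * (z + z⁻¹) by rw [mul_add, mul_inv_cancel₀ hz, sq], mul_pow,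
    zsmul_eq_mul, ← eq_intCast (algebraMap ℤ ℂ)]
  conv_rhs => rw [← Nat.sub_add_cancel hid, pow_add]
  ring

theorem lift_eval_zero {f : ℤ[X]} (hf : f.Monic) : aeval (0 : ℂ) (lift f) = 1 := by
  rw [lift, map_sum, sum_eq_single f.natDegree]
  · simp [hf.coeff_natDegree]
  · intro i hi hne
    have : f.natDegree - i ≠ 0 := by have := mem_range.1 hi; omega
    simp [zero_pow this]
  · simp

theorem monic_lift {f : ℤ[X]} (hf : f.Monic) : (lift f).Monic := by
  set d := f.natDegree with hd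
  have hX : ((X : ℤ[X]) ^ 2 + 1).Monic := by monicity!
  have htop : ((X ^ 2 + 1 : ℤ[X]) ^ d).degree = (2 * d : ℕ) := by
    rw [degree_eq_natDegree (pow_ne_zero _ hX.ne_zero), hX.natDegree_pow,
      show (X ^ 2 + 1 : ℤ[X]).natDegree = 2 by compute_degree!, mul_comm]
  rw [lift, sum_range_succ, ← hd, hf.coeff_natDegree, map_one, one_mul, Nat.sub_self, pow_zero,
    one_mul]
  refine (hX.pow d).add_of_right ?_
  rw [htop]
  refine (degree_sum_le _ _).trans_lt ((Finset.sup_lt_iff (WithBot.bot_lt_coe _)).2 fun i hi => ?_)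
  have hid := mem_range.1 hi
  refine lt_of_le_of_lt (degree_le_natDegree) (WithBot.coe_lt_coe.2 ?_)
  refine lt_of_le_of_lt (natDegree_mul_le.trans (add_le_add (natDegree_C_mul_X_pow_le _ _)
    (natDegree_pow_le.trans (Nat.mul_le_mul_left i (show (X ^ 2 + 1 : ℤ[X]).natDegree ≤ 2 by
      compute_degree!))))) ?_
  show _ < 2 * d
  omega

/-- **Kronecker's theorem.** -/
theorem exists_two_cos {f : ℤ[X]} (hf : f.Monic)
    (h : ∀ z ∈ f.aroots ℂ, z.im = 0 ∧ |z.re| ≤ 2) {z : ℂ} (hz : z ∈ f.aroots ℂ) :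
    ∃ q : ℚ, z = 2 * Real.cos (2 * π * q) := by
  set g := lift f
  have hg : g.Monic := monic_lift hf
  have hne : ∀ w ∈ g.aroots ℂ, w ≠ 0 := fun w hw e => by
    have h0 := lift_eval_zero hf
    rw [← e, (mem_aroots.1 hw).2] at h0
    exact zero_ne_one h0
  have hnorm : ∀ w ∈ g.aroots ℂ, ‖w‖ = 1 := fun w hw => by
    have hw0 := hne w hw
    have hroot := (aeval_lift f hw0).symm.trans (mem_aroots.1 hw).2
    rw [mul_eq_zero, or_iff_right (pow_ne_zero _ hw0)] at hroot
    obtain ⟨him, hre⟩ := h _ (mem_aroots.2 ⟨hf.ne_zero, hroot⟩)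
    set t := (w + w⁻¹).re
    have hwt : w ^ 2 - (t : ℂ) * w + 1 = 0 := by
      rw [show (t : ℂ) = w + w⁻¹ from Complex.ext rfl (by simp [him])]
      field_simp
      ring
    have hnq : w.re ^ 2 + w.im ^ 2 = 1 := by
      have h1 := congrArg Complex.re hwt
      have h2 := congrArg Complex.im hwt
      simp only [sq, Complex.add_re, Complex.sub_re, Complex.mul_re, Complex.ofReal_re,
        Complex.ofReal_im, zero_mul, sub_zero, Complex.one_re, Complex.zero_re, Complex.add_im,
        Complex.sub_im, Complex.mul_im, Complex.one_im, Complex.zero_im, add_zero] at h1 h2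
      rcases mul_eq_zero.1 (show w.im * (2 * w.re - t) = 0 by linarith) with h3 | h3
      · rw [h3] at h1 ⊢
        have ht2 : t ^ 2 ≤ 2 ^ 2 := sq_le_sq.2 (by rwa [abs_two])
        have hsq : (2 * w.re - t) ^ 2 = t ^ 2 - 4 := by linear_combination 4 * h1
        have hwe : 2 * w.re - t = 0 := sq_eq_zero_iff.1 (by linarith [sq_nonneg (2 * w.re - t)])
        have ht : t = 2 * w.re := by linarith
        rw [ht] at h1
        linarith
      · have ht : t = 2 * w.re := by linarith
        rw [ht] at h1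
        linarith
    rw [Complex.norm_eq_sqrt_sq_add_sq, hnq, Real.sqrt_one]
  have hM : (g.map (Int.castRingHom ℂ)).mahlerMeasure = 1 := by
    rw [mahlerMeasure_eq_leadingCoeff_mul_prod_roots, (hg.map _).leadingCoeff, norm_one, one_mul]
    refine Multiset.prod_eq_one fun x hx => ?_
    obtain ⟨w, hw, rfl⟩ := Multiset.mem_map.1 hx
    rw [hnorm w (by rwa [aroots_def, algebraMap_int_eq]), max_self]
  obtain ⟨w, hw0, hwz⟩ : ∃ w : ℂ, w ≠ 0 ∧ w + w⁻¹ = z := by
    obtain ⟨s, hs⟩ := IsAlgClosed.exists_eq_mul_self (z ^ 2 - 4)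
    refine ⟨(z + s) / 2, fun e => ?_, ?_⟩
    · have hzs : s = -z := by linear_combination 2 * e
      rw [hzs] at hs
      exact (by norm_num : (4 : ℂ) ≠ 0) (by linear_combination -hs)
    · have hne' : (z + s) / 2 ≠ 0 := fun e => by
        have hzs : s = -z := by linear_combination 2 * e
        rw [hzs] at hs
        exact (by norm_num : (4 : ℂ) ≠ 0) (by linear_combination -hs)
      have : (z + s) / 2 * ((z - s) / 2) = 1 := by linear_combination (-1 / 4 : ℂ) * (-hs)
      rw [eq_inv_of_mul_eq_one_right this |>.symm]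
      ring
  have hw : w ∈ g.aroots ℂ := mem_aroots.2 ⟨hg.ne_zero, by
    rw [aeval_lift f hw0, hwz, (mem_aroots.1 hz).2, mul_zero]⟩
  obtain ⟨n, hn, hwn⟩ := pow_eq_one_of_mahlerMeasure_eq_one hM hw0 hw
  have : NeZero n := ⟨hn.ne'⟩
  obtain ⟨i, -, hi⟩ := (Complex.isPrimitiveRoot_exp n hn.ne').eq_pow_of_pow_eq_one hwn
  refine ⟨(i : ℚ) / n, ?_⟩
  rw [← hwz, ← hi, ← Complex.exp_nat_mul, ← Complex.exp_neg, Complex.ofReal_cos, Complex.two_cos]
  congr 1 <;> (congr 1; push_cast; ring)

end FA.CyclotomicSquares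

end
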